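import Mathlib

/-!
# Abstract algebra behind the integral structure on `S₂(Γ₀(N))`

* `linearIndependent_of_stable_lattice`: endomorphisms of a finite dimensional space of
  functions preserving the integer valued functions (which span) are `ℂ`-independent as soon as
  they are `ℤ`-independent.
* `span_integral_eq_top`: the duality argument `S ≃ Hom(𝕋, ℂ)`.
-/

set_option autoImplicit false

namespace Fermat.Agent.Lib.Integral

open Module


section PartA

variable {H X : Type*} [AddCommGroup H] [Module ℂ H] [FiniteDimensional ℂ H]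

/-- **Lattice independence.** `H` a finite dimensional space of functions on `X` (via an
injective `ev`), spanned by its integer valued members.  Endomorphisms preserving the integer
valued members which are `ℤ`-independent are `ℂ`-independent. -/
theorem linearIndependent_of_stable_lattice
    (ev : H →ₗ[ℂ] (X → ℂ)) (hev : Function.Injective ev)
    (hspan : Submodule.span ℂ {h : H | ∀ x, ∃ m : ℤ, ev h x = m} = ⊤)
    {r : ℕ} (A : Fin r → Module.End ℂ H)
    (hA : ∀ i h, (∀ x, ∃ m : ℤ, ev h x = m) → ∀ x, ∃ m : ℤ, ev (A i h) x = m)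
    (hind : LinearIndependent ℤ A) : LinearIndependent ℂ A := by
  classical
  -- a basis of `H` made of integer valued members
  have hs : ⊤ ≤ Submodule.span ℂ {h : H | ∀ x, ∃ m : ℤ, ev h x = m} := le_of_eq hspan.symm
  let ψ := Module.Basis.ofSpan hs
  have hψ : ∀ i, ∀ x, ∃ m : ℤ, ev (ψ i) x = m := fun i =>
    Module.Basis.ofSpan_subset hs (Set.mem_range_self i)
  have hfinI := Module.Finite.finite_basis ψ
  -- a basis of the dual made of evaluations
  have hD : ⊤ ≤ Submodule.span ℂ (Set.range fun x : X => (LinearMap.proj x).comp ev) := by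
    rw [top_le_iff, ← Subspace.dualCoannihilator_dualAnnihilator_eq
      (W := Submodule.span ℂ (Set.range fun x : X => (LinearMap.proj x).comp ev))]
    have : (Submodule.span ℂ (Set.range fun x : X =>
        (LinearMap.proj x).comp ev)).dualCoannihilator = ⊥ := by
      rw [Submodule.eq_bot_iff]
      intro h hh
      apply hev
      rw [map_zero]
      funext x
      have := (Submodule.mem_dualCoannihilator h).mp hh ((LinearMap.proj x).comp ev)
        (Submodule.subset_span (Set.mem_range_self x))
      simpa using this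
    rw [this, Submodule.dualAnnihilator_bot]
  let ξ := Module.Basis.ofSpan hD
  have hξ : ∀ j, ∃ x : X, ξ j = (LinearMap.proj x).comp ev := fun j => by
    obtain ⟨x, hx⟩ := Module.Basis.ofSpan_subset hD (Set.mem_range_self j)
    exact ⟨x, hx.symm⟩
  choose xs hxs using hξ
  have hfinJ := Module.Finite.finite_basis ξ
  -- the matrix map
  let M : Module.End ℂ H →ₗ[ℂ] (_ × _ → ℂ) :=
    { toFun := fun B p => ξ p.2 (B (ψ p.1))
      map_add' := fun B B' => by funext p; simp
      map_smul' := fun c B => by funext p; simp }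
  have hMapp : ∀ B p, M B p = ξ p.2 (B (ψ p.1)) := fun _ _ => rfl
  have hMinj : Function.Injective M := by
    rw [← LinearMap.ker_eq_bot, LinearMap.ker_eq_bot']
    intro B hB
    apply ψ.ext
    intro i
    rw [LinearMap.zero_apply]
    -- all functionals of the dual basis vanish on `B (ψ i)`
    have h0 : ∀ j, ξ j (B (ψ i)) = 0 := fun j => by
      have := congrFun hB (i, j)
      simpa [hMapp] using this
    have h1 : ∀ φ : Module.Dual ℂ H, φ (B (ψ i)) = 0 := by
      intro φ
      have hφ : φ ∈ Submodule.span ℂ (Set.range ξ) := by rw [ξ.span_eq]; trivial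
      induction hφ using Submodule.span_induction with
      | mem x hx => obtain ⟨j, rfl⟩ := hx; exact h0 j
      | zero => simp
      | add x y _ _ hx hy => simp [hx, hy]
      | smul c x _ hx => simp [hx]
    exact (Module.forall_dual_apply_eq_zero_iff ℂ _).mp h1
  -- integer versions of the matrices
  have hint : ∀ i p, ∃ m : ℤ, M (A i) p = m := by
    intro i p
    rw [hMapp, hxs]
    exact hA i _ (hψ p.1) _
  choose v hv using hint
  have h2 : (fun i => M (A i)) = fun i => (Algebra.linearMap ℤ ℂ).compLeft _ (v i) := by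
    funext i p
    simp [hv]
  have h1 : LinearIndependent ℤ (fun i => M (A i)) :=
    hind.map' (M.restrictScalars ℤ) (by
      rw [LinearMap.ker_eq_bot]
      exact hMinj)
  have h3 : LinearIndependent ℤ v := by
    rw [h2] at h1
    exact LinearIndependent.of_comp _ h1
  have h4 : LinearIndependent ℂ (fun i => algebraMap ℤ ℂ ∘ v i) :=
    linearIndependent_algebraMap_comp_iff.mpr h3
  have h5 : (fun i => algebraMap ℤ ℂ ∘ v i) = M ∘ A := by
    funext i p
    simp [hv]
  rw [h5] at h4
  exact LinearIndependent.of_comp M h4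

end PartA


section PartB

variable {V H X : Type*} [AddCommGroup V] [Module ℂ V] [AddCommGroup H] [Module ℂ H]
  [FiniteDimensional ℂ H]

/-- Transport of endomorphisms of `V` to `H ≃ V × V` (diagonal action). -/
noncomputable def transportEnd (Φ : (V × V) ≃ₗ[ℂ] H) : Module.End ℂ V →ₗ[ℂ] Module.End ℂ H where
  toFun t := Φ.toLinearMap ∘ₗ (t.prodMap t) ∘ₗ Φ.symm.toLinearMap
  map_add' s t := by
    ext h
    simp only [LinearMap.comp_apply, LinearEquiv.coe_coe, LinearMap.prodMap_apply,
      LinearMap.add_apply]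
    rw [← map_add, Prod.mk_add_mk]
  map_smul' c t := by
    ext h
    show Φ ((c • t) (Φ.symm h).1, (c • t) (Φ.symm h).2)
      = c • Φ (t (Φ.symm h).1, t (Φ.symm h).2)
    rw [← map_smul]
    rfl

theorem transportEnd_apply (Φ : (V × V) ≃ₗ[ℂ] H) (t : Module.End ℂ V) (f g : V) :
    transportEnd Φ t (Φ (f, g)) = Φ (t f, t g) := by
  simp [transportEnd, LinearMap.prodMap_apply]

theorem transportEnd_injective (Φ : (V × V) ≃ₗ[ℂ] H) : Function.Injective (transportEnd Φ) := by
  rw [← LinearMap.ker_eq_bot, LinearMap.ker_eq_bot']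
  intro t ht
  ext f
  have h1 := congrArg (fun e : Module.End ℂ H => e (Φ (f, 0))) ht
  simp only [transportEnd_apply, LinearMap.zero_apply, map_zero] at h1
  have h2 : (t f, (0 : V)) = 0 := Φ.injective (by rw [h1, map_zero])
  simpa using congrArg Prod.fst h2

theorem transportEnd_one (Φ : (V × V) ≃ₗ[ℂ] H) : transportEnd Φ 1 = 1 := by
  ext h
  obtain ⟨⟨f, g⟩, rfl⟩ := Φ.surjective h
  rw [transportEnd_apply]
  simp

theorem transportEnd_mul (Φ : (V × V) ≃ₗ[ℂ] H) (s t : Module.End ℂ V) :
    transportEnd Φ (s * t) = transportEnd Φ s * transportEnd Φ t := by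
  ext h
  obtain ⟨⟨f, g⟩, rfl⟩ := Φ.surjective h
  rw [Module.End.mul_apply, transportEnd_apply, transportEnd_apply, transportEnd_apply]
  simp [Module.End.mul_apply]

/-- **Independence over `ℂ` from a stable lattice in `H ≃ V × V`.** -/
theorem linearIndependent_of_equiv
    (gens : Set (Module.End ℂ V))
    (Φ : (V × V) ≃ₗ[ℂ] H)
    (ev : H →ₗ[ℂ] (X → ℂ)) (hev : Function.Injective ev)
    (hspan : Submodule.span ℂ {h : H | ∀ x, ∃ m : ℤ, ev h x = m} = ⊤)
    (hgens : ∀ t ∈ gens, ∀ f g : V, (∀ x, ∃ m : ℤ, ev (Φ (f, g)) x = m) →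
      ∀ x, ∃ m : ℤ, ev (Φ (t f, t g)) x = m)
    (r : ℕ) (t : Fin r → Algebra.adjoin ℤ gens) (ht : LinearIndependent ℤ t) :
    LinearIndependent ℂ (fun i => ((t i : Algebra.adjoin ℤ gens) : Module.End ℂ V)) := by
  classical
  -- stability for the whole algebra
  have hstab : ∀ u ∈ Algebra.adjoin ℤ gens, ∀ h : H, (∀ x, ∃ m : ℤ, ev h x = m) →
      ∀ x, ∃ m : ℤ, ev (transportEnd Φ u h) x = m := by
    intro u hu
    induction hu using Algebra.adjoin_induction with
    | mem u hu =>
      intro h hh
      obtain ⟨⟨f, g⟩, rfl⟩ := Φ.surjective h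
      rw [transportEnd_apply]
      exact hgens u hu f g hh
    | algebraMap n =>
      intro h hh x
      obtain ⟨m, hm⟩ := hh x
      refine ⟨n * m, ?_⟩
      have : (algebraMap ℤ (Module.End ℂ V) n) = (n : ℂ) • (1 : Module.End ℂ V) := by
        rw [Algebra.algebraMap_eq_smul_one]
        exact (Int.cast_smul_eq_zsmul ℂ n _).symm
      rw [this, map_smul, transportEnd_one]
      simp [hm]
    | add u u' _ _ hu hu' =>
      intro h hh x
      obtain ⟨m, hm⟩ := hu h hh x
      obtain ⟨m', hm'⟩ := hu' h hh x
      refine ⟨m + m', ?_⟩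
      rw [map_add]
      simp [hm, hm']
    | mul u u' _ _ hu hu' =>
      intro h hh
      rw [transportEnd_mul, Module.End.mul_apply]
      exact hu _ (hu' h hh)
  -- apply part A
  have hA := linearIndependent_of_stable_lattice ev hev hspan
    (fun i => transportEnd Φ ((t i : Algebra.adjoin ℤ gens) : Module.End ℂ V))
    (fun i h hh => hstab _ (t i).2 h hh)
    (by
      have h1 : LinearIndependent ℤ (fun i => ((t i : Algebra.adjoin ℤ gens) : Module.End ℂ V)) :=
        ht.map' ((Algebra.adjoin ℤ gens).val.toLinearMap) (by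
          rw [LinearMap.ker_eq_bot]
          exact Subtype.val_injective)
      exact h1.map' ((transportEnd Φ).restrictScalars ℤ) (by
        rw [LinearMap.ker_eq_bot]
        exact transportEnd_injective Φ))
  exact LinearIndependent.of_comp (transportEnd Φ) hA

end PartB

section PartC

variable {V : Type*} [AddCommGroup V] [Module ℂ V]

/-- **Duality argument.** `𝕋` a commutative `ℤ`-algebra of endomorphisms of `V`, finite over `ℤ`,
whose `ℤ`-independent families stay `ℂ`-independent; `a n` "coefficient functionals" with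
`a n f = a 1 (t_n f)`, separating points.  Then `V` is spanned by the vectors all of whose
coefficients are integers. -/
theorem span_integral_eq_top
    (𝕋 : Subalgebra ℤ (Module.End ℂ V)) [Module.Finite ℤ 𝕋]
    (hcomm : ∀ s ∈ 𝕋, ∀ t ∈ 𝕋, s * t = t * s)
    (a : ℕ → (V →ₗ[ℂ] ℂ))
    (hsep : ∀ f, (∀ n, 1 ≤ n → a n f = 0) → f = 0)
    (hT : ∀ n, 1 ≤ n → ∃ t ∈ 𝕋, ∀ f, a n f = a 1 (t f))
    (hB : ∀ (r : ℕ) (t : Fin r → 𝕋), LinearIndependent ℤ t →
      LinearIndependent ℂ (fun i => ((t i : 𝕋) : Module.End ℂ V))) :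
    Submodule.span ℂ {f : V | ∀ n, 1 ≤ n → ∃ m : ℤ, a n f = m} = ⊤ := by
  classical
  -- a ℤ-basis of 𝕋
  have htfE : Module.IsTorsionFree ℤ (Module.End ℂ V) :=
    Module.IsTorsionFree.comap (S := ℂ) (fun n : ℤ => (n : ℂ))
      (fun n hn => by
        rw [isRegular_iff_ne_zero] at hn ⊢
        exact_mod_cast hn)
      (fun n m => Int.cast_smul_eq_zsmul ℂ n m)
  have htf : Module.IsTorsionFree ℤ 𝕋 :=
    Function.Injective.moduleIsTorsionFree (Subtype.val : 𝕋 → Module.End ℂ V)
      Subtype.val_injective (fun _ _ => rfl)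
  have hfree : Module.Free ℤ 𝕋 := Module.free_of_finite_type_torsion_free'
  set r := Module.finrank ℤ 𝕋 with hr
  let b : Basis (Fin r) ℤ 𝕋 := Module.finBasis ℤ 𝕋
  set τ : Fin r → Module.End ℂ V := fun i => ((b i : 𝕋) : Module.End ℂ V) with hτ
  have hτind : LinearIndependent ℂ τ := hB r b b.linearIndependent
  -- every element of 𝕋 is an integer combination of the τ
  have hrepr : ∀ t : 𝕋, ((t : 𝕋) : Module.End ℂ V) = ∑ i, (b.repr t i) • τ i := by
    intro t
    conv_lhs => rw [← b.sum_repr t]
    simp [hτ]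
  -- the pairing map
  let L : V →ₗ[ℂ] (Fin r → ℂ) :=
    LinearMap.pi fun i => (a 1) ∘ₗ (τ i)
  have hL : ∀ f i, L f i = a 1 (τ i f) := fun f i => rfl
  -- vanishing on all of 𝕋
  have hvan : ∀ f, L f = 0 → ∀ t : 𝕋, a 1 ((t : Module.End ℂ V) f) = 0 := by
    intro f hf t
    rw [hrepr t]
    simp only [LinearMap.sum_apply, LinearMap.smul_apply, map_sum, map_zsmul]
    refine Finset.sum_eq_zero fun i _ => ?_
    have : a 1 (τ i f) = 0 := by
      rw [← hL]; rw [hf]; rfl
    rw [this, smul_zero]
  have hLinj : Function.Injective L := by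
    rw [← LinearMap.ker_eq_bot, LinearMap.ker_eq_bot']
    intro f hf
    apply hsep
    intro n hn
    obtain ⟨t, ht, htn⟩ := hT n hn
    rw [htn]
    exact hvan f hf ⟨t, ht⟩
  -- surjectivity
  have hLsurj : Function.Surjective L := by
    rw [← LinearMap.range_eq_top]
    by_contra hne
    obtain ⟨φ, hφ0, hφ⟩ := Submodule.exists_dual_map_eq_bot_of_lt_top (lt_top_iff_ne_top.mpr hne) inferInstance
    -- φ : dual of (Fin r → ℂ), nonzero, vanishing on the range
    set c : Fin r → ℂ := fun i => φ (Pi.single i 1) with hc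
    have hφc : ∀ v : Fin r → ℂ, φ v = ∑ i, c i * v i := by
      intro v
      conv_lhs => rw [← Finset.univ_sum_single v]
      rw [map_sum]
      refine Finset.sum_congr rfl fun i _ => ?_
      have : (Pi.single i (v i) : Fin r → ℂ) = (v i) • (Pi.single i 1 : Fin r → ℂ) := by
        ext j; by_cases h : j = i
        · subst h; simp
        · simp [Pi.single_apply, h]
      rw [this, map_smul, smul_eq_mul, mul_comm]
    set u : Module.End ℂ V := ∑ i, c i • τ i with hu
    have hu1 : ∀ f, a 1 (u f) = 0 := by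
      intro f
      have h1 : φ (L f) = 0 := by
        have : L f ∈ LinearMap.range L := LinearMap.mem_range_self L f
        have h2 : φ (L f) ∈ Submodule.map φ (LinearMap.range L) := Submodule.mem_map_of_mem this
        rw [hφ] at h2
        simpa using h2
      rw [hφc] at h1
      simp only [hu, LinearMap.sum_apply, LinearMap.smul_apply, map_sum, map_smul, smul_eq_mul]
      simpa [hL] using h1
    -- u commutes with 𝕋
    have hucomm : ∀ t ∈ 𝕋, t * u = u * t := by
      intro t ht
      simp only [hu, Finset.mul_sum, Finset.sum_mul]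
      refine Finset.sum_congr rfl fun i _ => ?_
      rw [mul_smul_comm, smul_mul_assoc, hcomm t ht (τ i) (b i).2]
    have hu0 : u = 0 := by
      ext f
      simp only [LinearMap.zero_apply]
      apply hsep
      intro n hn
      obtain ⟨t, ht, htn⟩ := hT n hn
      rw [htn]
      have : t (u f) = u (t f) := by
        have := congrArg (fun e : Module.End ℂ V => e f) (hucomm t ht)
        simpa [Module.End.mul_apply] using this
      rw [this]
      exact hu1 _
    have hc0 : c = 0 := by
      have := Fintype.linearIndependent_iff.mp hτind c (by rw [← hu0, hu])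
      ext i; exact this i
    apply hφ0
    apply LinearMap.ext
    intro v
    rw [hφc]
    simp [hc0]
  -- the dual basis
  let e : V ≃ₗ[ℂ] (Fin r → ℂ) := LinearEquiv.ofBijective L ⟨hLinj, hLsurj⟩
  set g : Fin r → V := fun j => e.symm (Pi.single j 1) with hg
  have hgL : ∀ j, L (g j) = Pi.single j 1 := fun j => e.apply_symm_apply _
  have hgint : ∀ j, g j ∈ {f : V | ∀ n, 1 ≤ n → ∃ m : ℤ, a n f = m} := by
    intro j n hn
    obtain ⟨t, ht, htn⟩ := hT n hn
    refine ⟨b.repr ⟨t, ht⟩ j, ?_⟩
    have htt : t = ∑ i, (b.repr ⟨t, ht⟩ i) • τ i := hrepr ⟨t, ht⟩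
    rw [htn]
    conv_lhs => rw [htt]
    simp only [LinearMap.sum_apply, LinearMap.smul_apply, map_sum, map_zsmul]
    have : ∀ i, a 1 (τ i (g j)) = (Pi.single j 1 : Fin r → ℂ) i := by
      intro i; rw [← hL, hgL]
    simp only [this]
    rw [Finset.sum_eq_single j]
    · simp
    · intro i _ hij; simp [Pi.single_apply, hij]
    · intro h; exact absurd (Finset.mem_univ j) h
  rw [eq_top_iff]
  intro f _
  have hf : f = ∑ j, (L f j) • g j := by
    apply hLinj
    rw [map_sum]
    simp only [map_smul, hgL]
    ext i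
    simp [Finset.sum_apply, Pi.single_apply]
  rw [hf]
  exact Submodule.sum_mem _ fun j _ => Submodule.smul_mem _ _ (Submodule.subset_span (hgint j))

end PartC


section Main

variable {V H X : Type*} [AddCommGroup V] [Module ℂ V] [AddCommGroup H] [Module ℂ H]
  [FiniteDimensional ℂ H]

/-- **Integral structure, abstract form.**  `gens` pairwise commuting endomorphisms of `V`
generating a `ℤ`-algebra `𝕋` that is finite over `ℤ`; coefficient functionals `a n` separating
points, with `a n f = a 1 (t_n f)` for some `t_n ∈ 𝕋`; an isomorphism `Φ : V × V ≃ H` onto a finite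
dimensional space of functions on `X` which is spanned by its integer valued members, such that the
diagonal action of every generator preserves integer valued members.  Then `V` is spanned by the
vectors all of whose coefficients `a n`, `n ≥ 1`, are integers. -/
theorem span_integral_eq_top_of_lattice
    (gens : Set (Module.End ℂ V)) [Module.Finite ℤ (Algebra.adjoin ℤ gens)]
    (hcomm : ∀ s ∈ gens, ∀ t ∈ gens, s * t = t * s)
    (a : ℕ → (V →ₗ[ℂ] ℂ))
    (hsep : ∀ f, (∀ n, 1 ≤ n → a n f = 0) → f = 0)
    (hT : ∀ n, 1 ≤ n → ∃ t ∈ Algebra.adjoin ℤ gens, ∀ f, a n f = a 1 (t f))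
    (Φ : (V × V) ≃ₗ[ℂ] H)
    (ev : H →ₗ[ℂ] (X → ℂ)) (hev : Function.Injective ev)
    (hspan : Submodule.span ℂ {h : H | ∀ x, ∃ m : ℤ, ev h x = m} = ⊤)
    (hgens : ∀ t ∈ gens, ∀ f g : V, (∀ x, ∃ m : ℤ, ev (Φ (f, g)) x = m) →
      ∀ x, ∃ m : ℤ, ev (Φ (t f, t g)) x = m) :
    Submodule.span ℂ {f : V | ∀ n, 1 ≤ n → ∃ m : ℤ, a n f = m} = ⊤ := by
  refine span_integral_eq_top (Algebra.adjoin ℤ gens) ?_ a hsep hT
    (linearIndependent_of_equiv gens Φ ev hev hspan hgens)
  intro s hs t ht
  have h1 : ∀ b ∈ gens, Commute s b := fun b hb =>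
    (Algebra.commute_of_mem_adjoin_of_forall_mem_commute hs
      (fun c hc => (hcomm b hb c hc : Commute b c))).symm
  exact Algebra.commute_of_mem_adjoin_of_forall_mem_commute ht h1

end Main

end Fermat.Agent.Lib.Integral
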