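/-
S23 work package L: homomorphisms from a finitely generated group to `ℂ` vanishing on a given
subset are spanned (over `ℂ`) by the `ℤ`-valued ones.  Applied to the parabolic homs of `Γ₀(N)`.
-/
import Mathlib
import Fermat.Prelude.Def_ModularCurve_PeriodMap
import Fermat.Agent.Lib.ES.FG

set_option autoImplicit false

namespace Fermat.Agent.Lib.Integral

open Module

section Abstract

variable {G : Type*} [Group G]

/-- The image of a hom from a finitely generated group to `ℂ` is a finite `ℤ`-module. -/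
theorem intL_finite_range [Group.FG G] (ψ : Additive G →+ ℂ) :
    Module.Finite ℤ (AddMonoidHom.range ψ).toIntSubmodule := by
  have h1 : (AddMonoidHom.range ψ).FG := by
    rw [← AddGroup.fg_iff_addSubgroup_fg]
    exact AddGroup.fg_of_surjective (f := ψ.rangeRestrict) ψ.rangeRestrict_surjective
  rw [Module.Finite.iff_fg, Submodule.fg_iff_addSubgroup_fg]
  simpa using h1

/-- Decomposition of a hom `ψ : G → ℂ` (`G` finitely generated) as a finite `ℂ`-combination of
`ℤ`-valued homs, each vanishing wherever `ψ` does. -/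
theorem intL_exists_decomp [Group.FG G] (ψ : Additive G →+ ℂ) :
    ∃ (ι : Type) (_ : Fintype ι) (ω : ι → ℂ) (χ : ι → (Additive G →+ ℤ)),
      (∀ g, ψ g = ∑ j, ω j * (χ j g : ℂ)) ∧ (∀ j g, ψ g = 0 → χ j g = 0) := by
  classical
  set R : Submodule ℤ ℂ := (AddMonoidHom.range ψ).toIntSubmodule with hR
  have : Module.Finite ℤ R := intL_finite_range ψ
  have : Module.Free ℤ R := Module.free_of_finite_type_torsion_free'
  let b := Module.Free.chooseBasis ℤ R
  -- `ψ` as a map into `R`
  let ψR : Additive G →+ R :=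
    { toFun := fun g => ⟨ψ g, ⟨g, rfl⟩⟩
      map_zero' := by ext; simp
      map_add' := fun x y => by ext; simp }
  refine ⟨Module.Free.ChooseBasisIndex ℤ R, inferInstance, fun j => (b j : ℂ),
    fun j => (b.coord j).toAddMonoidHom.comp ψR, ?_, ?_⟩
  · intro g
    have h := b.sum_repr (ψR g)
    have h2 := congrArg (fun x : R => (x : ℂ)) h
    simp only [Submodule.coe_sum, Submodule.coe_smul] at h2
    have h3 : ((ψR g : R) : ℂ) = ψ g := rfl
    rw [← h3, ← h2]
    refine Finset.sum_congr rfl fun j _ => ?_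
    rw [zsmul_eq_mul, mul_comm]
    rfl
  · intro j g hg
    have : ψR g = 0 := by ext; exact hg
    simp [this]

/-- **WP L, abstract form.** -/
theorem intL_span_intValued_eq_top [Group.FG G] (P : Set G)
    (H : Submodule ℂ (Additive G →+ ℂ))
    (hH : ∀ φ : Additive G →+ ℂ, φ ∈ H ↔ ∀ g ∈ P, φ (Additive.ofMul g) = 0) :
    Submodule.span ℂ {h : H | ∀ g : G, ∃ m : ℤ, (h : Additive G →+ ℂ) (Additive.ofMul g) = m}
      = ⊤ := by
  rw [eq_top_iff]
  rintro ⟨ψ, hψ⟩ -
  obtain ⟨ι, _, ω, χ, hsum, hvan⟩ := intL_exists_decomp ψ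
  -- the `ℤ`-valued homs as elements of `H`
  let χC : ι → (Additive G →+ ℂ) := fun j => (Int.castAddHom ℂ).comp (χ j)
  have hχH : ∀ j, χC j ∈ H := by
    intro j
    rw [hH]
    intro g hg
    have := hvan j (Additive.ofMul g) ((hH ψ).mp hψ g hg)
    simp [χC, this]
  have hdecomp : (⟨ψ, hψ⟩ : H) = ∑ j, ω j • (⟨χC j, hχH j⟩ : H) := by
    apply Subtype.ext
    rw [Submodule.coe_sum]
    refine DFunLike.ext _ _ fun g => ?_
    rw [hsum g, AddMonoidHom.finsetSum_apply]
    refine Finset.sum_congr rfl fun j _ => ?_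
    simp [χC]
  rw [hdecomp]
  refine Submodule.sum_mem _ fun j _ => Submodule.smul_mem _ _ (Submodule.subset_span ?_)
  intro g
  exact ⟨χ j (Additive.ofMul g), by simp [χC]⟩

end Abstract

section Gamma0

open ModularCurve.Period CongruenceSubgroup
open scoped MatrixGroups

/-- Evaluation of parabolic homs at the elements of `Γ₀(N)`. -/
def intL_ev (N : ℕ) : parabolicHoms ℂ (Gamma0 N) ℂ →ₗ[ℂ] (Gamma0 N → ℂ) where
  toFun ψ γ := (ψ : Additive (Gamma0 N) →+ ℂ) (Additive.ofMul γ)
  map_add' _ _ := rfl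
  map_smul' _ _ := rfl

@[simp] theorem intL_ev_apply (N : ℕ) (ψ : parabolicHoms ℂ (Gamma0 N) ℂ) (γ : Gamma0 N) :
    intL_ev N ψ γ = (ψ : Additive (Gamma0 N) →+ ℂ) (Additive.ofMul γ) := rfl

theorem intL_ev_injective (N : ℕ) : Function.Injective (intL_ev N) := by
  intro ψ ψ' h
  apply Subtype.ext
  refine DFunLike.ext _ _ fun g => ?_
  exact congrFun h (Additive.toMul g)

/-- **WP L**: the parabolic homs of `Γ₀(N)` are spanned by the `ℤ`-valued ones. -/
theorem intL_hspan (N : ℕ) [NeZero N] :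
    Submodule.span ℂ {h : parabolicHoms ℂ (Gamma0 N) ℂ | ∀ γ : Gamma0 N, ∃ m : ℤ,
      intL_ev N h γ = m} = ⊤ := by
  have : Group.FG (Gamma0 N) := Fermat.Agent.Lib.ES.groupFG_Gamma0 N
  exact intL_span_intValued_eq_top
    (P := {γ : Gamma0 N | ((γ : SL(2, ℤ)) : Matrix (Fin 2) (Fin 2) ℤ).trace ^ 2 = 4})
    (parabolicHoms ℂ (Gamma0 N) ℂ) (fun φ => Iff.rfl)

end Gamma0

end Fermat.Agent.Lib.Integral
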