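import Mathlib
import Fermat.Prelude.Def_CuspForm_IntegralStructure
import Fermat.Prelude.Def_CuspForm_HeckeAlgebra
import Fermat.Agent.Lib.Hecke.QCoeff

/-!
# S23, work package Q: the `q`-expansion side

* `intQ_a N n`: the `n`-th `q`-coefficient as a linear functional on `S₂(Γ₀(N))`;
* `intQ_hsep`: the coefficients `a_n`, `n ≥ 1`, separate cusp forms;
* `intQ_hT`: `a_n f = a_1 (t_n f)` for some `t_n` in the ℤ-algebra generated by the Hecke operators;
* `intQ_hcomm`: the Hecke generators commute;
* `intQ_hasIntegralStructure_of_span`: the wrapper to `CuspForm.HasIntegralStructure N 2`.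
-/

set_option autoImplicit false

namespace Fermat.Agent.Lib.Integral

open ModularFormClass CuspForm CongruenceSubgroup Fermat.Agent.Lib.QCoeff

variable (N : ℕ) [NeZero N]

/-- (Q1) The `n`-th `q`-expansion coefficient as a linear functional. -/
noncomputable def intQ_a (n : ℕ) : CuspForm (Gamma0 N) 2 →ₗ[ℂ] ℂ := qCoeffLin N 2 n

omit [NeZero N] in
theorem intQ_a_apply (n : ℕ) (f : CuspForm (Gamma0 N) 2) :
    intQ_a N n f = ModularFormClass.qCoeff f n := rfl

/-- (Q2) The coefficients of positive index separate cusp forms. -/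
theorem intQ_hsep (f : CuspForm (Gamma0 N) 2) (h : ∀ n, 1 ≤ n → intQ_a N n f = 0) : f = 0 :=
  eq_zero_of_qCoeff f h

/-- (Q4) The Hecke generators commute. -/
theorem intQ_hcomm : ∀ s ∈ heckeGenerators N 2 ∅, ∀ t ∈ heckeGenerators N 2 ∅, s * t = t * s :=
  fun _ hs _ ht => (commute_of_mem_heckeGenerators hs ht).eq

/-- (Q3) `a_n f = a_1 (t_n f)` with `t_n` in the ℤ-algebra generated by the Hecke operators. -/
theorem intQ_hT : ∀ n, 1 ≤ n → ∃ t ∈ Algebra.adjoin ℤ (heckeGenerators N 2 ∅),
    ∀ f, intQ_a N n f = intQ_a N 1 (t f) := by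
  intro n
  induction n using Nat.strong_induction_on with
  | _ n ih =>
    intro hn
    rcases Nat.lt_or_ge n 2 with h2 | h2
    · obtain rfl : n = 1 := by omega
      exact ⟨1, Subalgebra.one_mem _, fun f => rfl⟩
    · have hp : n.minFac.Prime := Nat.minFac_prime (by omega)
      set p := n.minFac with hpdef
      obtain ⟨m, hm⟩ : p ∣ n := Nat.minFac_dvd n
      have hm' : n = m * p := by rw [hm, mul_comm]
      have hp2 : 2 ≤ p := hp.two_le
      have hm1 : 1 ≤ m := by
        rcases Nat.eq_zero_or_pos m with h | h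
        · subst h; omega
        · exact h
      have hmn : m < n := by
        rw [hm']
        exact lt_mul_of_one_lt_right hm1 hp2
      obtain ⟨tm, htm, htm'⟩ := ih m hmn hm1
      by_cases hpN : p ∣ N
      · -- `U_p`
        refine ⟨tm * heckeULin 2 hpN, Subalgebra.mul_mem _ htm
          (Algebra.subset_adjoin (heckeULin_mem_heckeGenerators hp hpN (Set.notMem_empty p))), ?_⟩
        intro f
        rw [Module.End.mul_apply, ← htm', intQ_a_apply, intQ_a_apply, qCoeff_heckeULin hp hpN, hm']
      · -- `T_p`
        have hT : heckeTLin 2 hp hpN ∈ Algebra.adjoin ℤ (heckeGenerators N 2 ∅) :=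
          Algebra.subset_adjoin (heckeTLin_mem_heckeGenerators hp hpN (Set.notMem_empty p))
        have hrec : ∀ f : CuspForm (Gamma0 N) 2, intQ_a N m (heckeTLin 2 hp hpN f) =
            intQ_a N n f + if p ∣ m then (p : ℂ) * intQ_a N (m / p) f else 0 := by
          intro f
          simp only [intQ_a_apply]
          rw [qCoeff_heckeTLin hp hpN f m, hm']
          norm_num
        by_cases hpm : p ∣ m
        · have hmp1 : 1 ≤ m / p := Nat.div_pos (Nat.le_of_dvd hm1 hpm) hp.pos
          have hmpn : m / p < n := lt_of_le_of_lt (Nat.div_le_self m p) hmn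
          obtain ⟨t', ht', ht''⟩ := ih (m / p) hmpn hmp1
          refine ⟨tm * heckeTLin 2 hp hpN - (p : ℤ) • t',
            Subalgebra.sub_mem _ (Subalgebra.mul_mem _ htm hT) (Subalgebra.zsmul_mem _ ht' _), ?_⟩
          intro f
          have h1 := hrec f
          rw [if_pos hpm, htm', ht''] at h1
          rw [LinearMap.sub_apply, Module.End.mul_apply, LinearMap.smul_apply, map_sub, map_zsmul,
            h1, zsmul_eq_mul]
          push_cast
          ring
        · refine ⟨tm * heckeTLin 2 hp hpN, Subalgebra.mul_mem _ htm hT, ?_⟩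
          intro f
          have h1 := hrec f
          rw [if_neg hpm, add_zero, htm'] at h1
          rw [Module.End.mul_apply, h1]

omit [NeZero N] in
/-- (Q5) The wrapper to `CuspForm.HasIntegralStructure N 2`. -/
theorem intQ_hasIntegralStructure_of_span
    (h : Submodule.span ℂ {f : CuspForm (Gamma0 N) 2 |
      ∀ n, 1 ≤ n → ∃ m : ℤ, intQ_a N n f = m} = ⊤) : CuspForm.HasIntegralStructure N 2 := by
  unfold CuspForm.HasIntegralStructure
  rw [eq_top_iff, ← h]
  refine Submodule.span_mono ?_
  intro f hf
  refine Submodule.subset_span ?_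
  intro n
  rcases Nat.eq_zero_or_pos n with rfl | hn
  · exact ⟨0, by rw [qCoeff_zero f]; simp⟩
  · exact hf n hn

end Fermat.Agent.Lib.Integral
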