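import Mathlib
import Fermat.Agent.Lib.Integral.Abstract
import Fermat.Agent.Lib.Integral.QSide
import Fermat.Agent.S22

/-!
# S23: assembly of the `q`-side with the abstract lattice argument

`intQ_hasIntegralStructure_of_lattice`: `CuspForm.HasIntegralStructure N 2` from an isomorphism
`Φ : S₂ × S₂ ≃ H` onto a finite dimensional space of functions spanned by its integer valued
members, such that the Hecke generators preserve integrality (hypotheses `hspan`, `hgens` of
`span_integral_eq_top_of_lattice`). The `q`-side hypotheses and the finiteness of the Hecke algebra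
(S22) are discharged here.
-/

set_option autoImplicit false

namespace Fermat.Agent.Lib.Integral

open CuspForm CongruenceSubgroup

theorem intQ_hasIntegralStructure_of_lattice (N : ℕ) [NeZero N] {H X : Type*} [AddCommGroup H]
    [Module ℂ H] [FiniteDimensional ℂ H]
    (Φ : (CuspForm (Gamma0 N) 2 × CuspForm (Gamma0 N) 2) ≃ₗ[ℂ] H)
    (ev : H →ₗ[ℂ] (X → ℂ)) (hev : Function.Injective ev)
    (hspan : Submodule.span ℂ {h : H | ∀ x, ∃ m : ℤ, ev h x = m} = ⊤)
    (hgens : ∀ t ∈ heckeGenerators N 2 ∅, ∀ f g : CuspForm (Gamma0 N) 2,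
      (∀ x, ∃ m : ℤ, ev (Φ (f, g)) x = m) → ∀ x, ∃ m : ℤ, ev (Φ (t f, t g)) x = m) :
    CuspForm.HasIntegralStructure N 2 := by
  have : Module.Finite ℤ (Algebra.adjoin ℤ (heckeGenerators N 2 ∅)) :=
    Fermat.Agent.S22.result N 2 ∅
  exact intQ_hasIntegralStructure_of_span N
    (span_integral_eq_top_of_lattice (heckeGenerators N 2 ∅) (intQ_hcomm N) (intQ_a N)
      (intQ_hsep N) (intQ_hT N) Φ ev hev hspan hgens)

end Fermat.Agent.Lib.Integral
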