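import Mathlib
import Fermat.Prelude.Def_ModularCurve_PeriodHomPair
import Fermat.Agent.Lib.Integral.QAssembly
import Fermat.Agent.Lib.Integral.Lattice
import Fermat.Agent.Lib.Period.ParDim

/-!
# S23: final glue

`intF_hasIntegralStructure`: `CuspForm.HasIntegralStructure N 2` from the statement of S21
(`periodHomPair N` is injective with range the parabolic homs) and the Hecke stability of the
integrality of periods (WP Hk).  The lattice (WP L), the `q`-side (WP Q), S22 and the finite
dimensionality of the space of parabolic homs are plugged in here.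
-/

set_option autoImplicit false

namespace Fermat.Agent.Lib.Integral

open CuspForm CongruenceSubgroup ModularCurve ModularCurve.Period Fermat.Agent.Lib.Period

/-- The period pairing as a linear equivalence onto the parabolic homs (given S21). -/
noncomputable def intF_Phi (N : ℕ)
    (hS21 : Function.Injective (periodHomPair N) ∧
      LinearMap.range (periodHomPair N) = parabolicHoms ℂ (Gamma0 N) ℂ) :
    (CuspForm (Gamma0 N) 2 × CuspForm (Gamma0 N) 2) ≃ₗ[ℂ] parabolicHoms ℂ (Gamma0 N) ℂ :=
  (LinearEquiv.ofInjective (periodHomPair N) hS21.1).trans (LinearEquiv.ofEq _ _ hS21.2)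

theorem intF_Phi_coe (N : ℕ)
    (hS21 : Function.Injective (periodHomPair N) ∧
      LinearMap.range (periodHomPair N) = parabolicHoms ℂ (Gamma0 N) ℂ)
    (x : CuspForm (Gamma0 N) 2 × CuspForm (Gamma0 N) 2) :
    ((intF_Phi N hS21 x : parabolicHoms ℂ (Gamma0 N) ℂ) : Additive (Gamma0 N) →+ ℂ) =
      periodHomPair N x := rfl

/-- **S23 from S21 and the Hecke stability of integral periods.** -/
theorem intF_hasIntegralStructure (N : ℕ) [NeZero N]
    (hS21 : Function.Injective (periodHomPair N) ∧
      LinearMap.range (periodHomPair N) = parabolicHoms ℂ (Gamma0 N) ℂ)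
    (hgens : ∀ t ∈ CuspForm.heckeGenerators N 2 ∅, ∀ f g : CuspForm (Gamma0 N) 2,
      (∀ γ : Gamma0 N, ∃ m : ℤ, periodHomPair N (f, g) (Additive.ofMul γ) = m) →
        ∀ γ : Gamma0 N, ∃ m : ℤ, periodHomPair N (t f, t g) (Additive.ofMul γ) = m) :
    CuspForm.HasIntegralStructure N 2 :=
  intQ_hasIntegralStructure_of_lattice N (intF_Phi N hS21) (intL_ev N) (intL_ev_injective N)
    (intL_hspan N) fun t ht f g h γ => by
      have := hgens t ht f g (fun γ => h γ) γ
      exact this

end Fermat.Agent.Lib.Integral
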