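import Fermat.Agent.Lib.ES.HeckeCompat
import Fermat.Agent.Lib.Period.Assembly
import Fermat.Prelude.Def_CuspForm_HeckeAlgebra

set_option autoImplicit false

/-!
# S23, WP Hk: the Hecke generators preserve integrality of the period pairing

Link between the Eichler–Shimura cocycle of `Lib/ES` at weight two (`w = 0`) and the Prelude's
period map, and the Hecke compatibility of the period pairing, including the compatibility with the
involution `γ ↦ jConjSL γ`.
-/

open UpperHalfPlane Filter Topology Function Complex CongruenceSubgroup ModularCurve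
  ModularCurve.Period Matrix Matrix.SpecialLinearGroup
open scoped Manifold MatrixGroups ModularForm

namespace Fermat.Agent.Lib.Integral

open Fermat.Agent.Lib.ES Fermat.Agent.Lib.Period

/-! ### Weight two: `polyAct 0` is the identity -/

lemma intHk_polyAct_zero (α : Matrix (Fin 2) (Fin 2) ℤ) (v : Fin (0 + 1) → ℂ) :
    polyAct 0 α v = v := by
  funext j
  rw [polyAct_apply_apply]
  have hj : j = 0 := Fin.fin_one_eq_zero j
  subst hj
  simp [polyActMat, actPoly]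

/-! ### The Eichler integral at weight two is minus the canonical primitive -/

variable {N : ℕ} [NeZero N]

lemma intHk_eichE_zero_apply (a : ℕ → ℂ) (z : ℂ) (j : Fin (0 + 1)) :
    eichE a 0 z j = -eichG a 1 z := by
  have hj : j = 0 := Fin.fin_one_eq_zero j
  subst hj
  simp [eichE, powVec]

lemma intHk_eichG_one_eq_prim (f : CuspForm (Gamma0 N) 2) (τ : ℍ) :
    eichG (cuspCoeff f) 1 (τ : ℂ) = pmP_prim N f τ := by
  obtain ⟨C, hC⟩ := coeffBound_cuspCoeff f (A := 1) (by norm_num)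
  have key : (fun τ : ℍ => eichG (cuspCoeff f) 1 (τ : ℂ)) = pmP_prim N f := by
    refine pmP_eq_of_hasDerivAt_of_tendsto (f := ⇑f) (fun σ => ?_) (pmP_prim_spec N f).1 ?_
      (pmP_prim_spec N f).2.1
    · have h1 := hasDerivAt_eichG hC 0 σ.im_pos
      rw [eichG_zero_eq f σ] at h1
      refine h1.congr_of_eventuallyEq ?_
      filter_upwards [pmP_eventuallyEq_ofComplex σ] with z hz
      simp only [Function.comp_apply, hz]
    · obtain ⟨C', hC'0, hC'⟩ := norm_eichG_le_exp hC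
      rw [tendsto_zero_iff_norm_tendsto_zero]
      have hexp : Tendsto (fun σ : ℍ => C' * Real.exp (-(2 * Real.pi) * σ.im)) atImInfty (𝓝 0) := by
        have h1 : Tendsto (fun σ : ℍ => σ.im) atImInfty atTop := tendsto_comap
        have h2 : Tendsto (fun y : ℝ => -(2 * Real.pi) * y) atTop atBot :=
          tendsto_id.const_mul_atTop_of_neg (by linarith [Real.pi_pos])
        have h3 := (Real.tendsto_exp_atBot.comp (h2.comp h1)).const_mul C'
        simpa using h3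
      refine tendsto_of_tendsto_of_tendsto_of_le_of_le' tendsto_const_nhds hexp
        (Eventually.of_forall fun σ => norm_nonneg _) ?_
      have : {σ : ℍ | 1 ≤ σ.im} ∈ atImInfty :=
        (atImInfty_mem _).mpr ⟨1, fun z hz => hz⟩
      filter_upwards [this] with σ hσ
      exact hC' 1 σ hσ
  exact congrFun key τ

/-- The Eichler–Shimura cocycle at weight two is minus the period. -/
theorem intHk_cocycle_eq (f : CuspForm (Gamma0 N) 2) (γ : Gamma0 N) (j : Fin (0 + 1)) :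
    cocycle N 0 (γ : SL(2, ℤ)) f j = -(periodMap N f (Additive.ofMul γ)) := by
  rw [cocycle_apply, cocycleFun, intHk_polyAct_zero]
  have h1 : mob ((γ : SL(2, ℤ)) : Matrix (Fin 2) (Fin 2) ℤ) Complex.I =
      (((γ : SL(2, ℤ)) • UpperHalfPlane.I : ℍ) : ℂ) := mob_coe (γ : SL(2, ℤ)) UpperHalfPlane.I
  have h2 : (Complex.I : ℂ) = ((UpperHalfPlane.I : ℍ) : ℂ) := rfl
  rw [Pi.sub_apply, intHk_eichE_zero_apply, intHk_eichE_zero_apply, h1]
  rw [h2, intHk_eichG_one_eq_prim, intHk_eichG_one_eq_prim, pmP_periodMap_apply]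
  ring

/-! ### Generic Hecke compatibility of the period map -/

theorem intHk_periodMap_of_sum_slash {ι : Type*} [Fintype ι]
    (α : ι → Matrix (Fin 2) (Fin 2) ℤ) (A : ι → GL (Fin 2) ℝ)
    (hA : ∀ j, (A j : Matrix (Fin 2) (Fin 2) ℝ) = (α j).map (Int.cast : ℤ → ℝ))
    (hdet : ∀ j, 0 < (α j).det) (hut : ∀ j, α j 1 0 = 0)
    (f f' : CuspForm (Gamma0 N) 2)
    (hf' : ⇑f' = ∑ j, ⇑f ∣[(2 : ℤ)] A j)
    (γ : Gamma0 N) (γ' : ι → Gamma0 N) (σ : Equiv.Perm ι)
    (hσ : ∀ j, α j * ((γ : SL(2, ℤ)) : Matrix (Fin 2) (Fin 2) ℤ) =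
      ((γ' j : SL(2, ℤ)) : Matrix (Fin 2) (Fin 2) ℤ) * α (σ j)) :
    periodMap N f' (Additive.ofMul γ) = ∑ j, periodMap N f (Additive.ofMul (γ' j)) := by
  have h := cocycle_of_sum_slash (N := N) (w := 0) α A hA hdet hut f f' hf' (γ : SL(2, ℤ)) γ.2
    (fun j => (γ' j : SL(2, ℤ))) (fun j => (γ' j).2) σ hσ
  have h0 := congrFun h 0
  rw [intHk_cocycle_eq f' γ 0, Finset.sum_apply] at h0
  simp only [intHk_polyAct_zero] at h0
  have h1 : ∀ j, cocycle N 0 ((γ' j : Gamma0 N) : SL(2, ℤ)) f 0 =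
      -(periodMap N f (Additive.ofMul (γ' j))) := fun j => intHk_cocycle_eq f (γ' j) 0
  simp only [h1, Finset.sum_neg_distrib] at h0
  exact neg_injective h0

/-- Powers of `T` as elements of `Γ₀(N)`. -/
def intHk_Tpow (N : ℕ) (k : ℤ) : Gamma0 N :=
  ⟨ModularGroup.T ^ k, by
    rw [Gamma0_mem, ModularGroup.coe_T_zpow]
    simp⟩

lemma intHk_periodMap_Tpow (f : CuspForm (Gamma0 N) 2) (k : ℤ) :
    periodMap N f (Additive.ofMul (intHk_Tpow N k)) = 0 :=
  pmP_periodMap_eq_zero_of_conj N f (intHk_Tpow N k) 1 k (Or.inl (by simp [intHk_Tpow]))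

omit [NeZero N] in
lemma intHk_periodMap_mul (f : CuspForm (Gamma0 N) 2) (a b : Gamma0 N) :
    periodMap N f (Additive.ofMul (a * b)) =
      periodMap N f (Additive.ofMul a) + periodMap N f (Additive.ofMul b) := by
  rw [ofMul_mul, map_add]

theorem intHk_periodMap_jConj_of_sum_slash {ι : Type*} [Fintype ι]
    (α : ι → Matrix (Fin 2) (Fin 2) ℤ) (A : ι → GL (Fin 2) ℝ)
    (hA : ∀ j, (A j : Matrix (Fin 2) (Fin 2) ℝ) = (α j).map (Int.cast : ℤ → ℝ))
    (hdet : ∀ j, 0 < (α j).det) (hut : ∀ j, α j 1 0 = 0)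
    (f f' : CuspForm (Gamma0 N) 2)
    (hf' : ⇑f' = ∑ j, ⇑f ∣[(2 : ℤ)] A j)
    (γ : Gamma0 N) (γ' : ι → Gamma0 N) (σ : Equiv.Perm ι)
    (hσ : ∀ j, α j * ((γ : SL(2, ℤ)) : Matrix (Fin 2) (Fin 2) ℤ) =
      ((γ' j : SL(2, ℤ)) : Matrix (Fin 2) (Fin 2) ℤ) * α (σ j))
    (ν : Equiv.Perm ι) (t : ι → ℤ) (hνν : ∀ x, ν (ν x) = x)
    (hν : ∀ x, α (ν x) =
      ((ModularGroup.T ^ (t x) : SL(2, ℤ)) : Matrix (Fin 2) (Fin 2) ℤ) * jConjMat (α x)) :
    periodMap N f' (Additive.ofMul (jConjGamma0 N γ)) =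
      ∑ j, periodMap N f (Additive.ofMul (jConjGamma0 N (γ' j))) := by
  -- the family for `jConj γ`
  set γ'' : ι → Gamma0 N := fun y =>
    intHk_Tpow N (t (ν y)) * jConjGamma0 N (γ' (ν y)) * intHk_Tpow N (-(t (σ (ν y)))) with hγ''
  set σ'' : Equiv.Perm ι := ν.trans (σ.trans ν) with hσ''
  have hrel : ∀ y, α y * (((jConjGamma0 N γ : Gamma0 N) : SL(2, ℤ)) : Matrix (Fin 2) (Fin 2) ℤ) =
      (((γ'' y : Gamma0 N) : SL(2, ℤ)) : Matrix (Fin 2) (Fin 2) ℤ) * α (σ'' y) := by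
    intro y
    have e1 : α y = ((ModularGroup.T ^ (t (ν y)) : SL(2, ℤ)) : Matrix (Fin 2) (Fin 2) ℤ) *
        jConjMat (α (ν y)) := by
      rw [← hν (ν y), hνν]
    have e2 : α (σ'' y) = ((ModularGroup.T ^ (t (σ (ν y))) : SL(2, ℤ)) :
        Matrix (Fin 2) (Fin 2) ℤ) * jConjMat (α (σ (ν y))) := by
      rw [hσ'']
      exact hν (σ (ν y))
    have e3 : (((jConjGamma0 N γ : Gamma0 N) : SL(2, ℤ)) : Matrix (Fin 2) (Fin 2) ℤ) =
        jConjMat ((γ : SL(2, ℤ)) : Matrix (Fin 2) (Fin 2) ℤ) := rfl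
    have e4 : (((γ'' y : Gamma0 N) : SL(2, ℤ)) : Matrix (Fin 2) (Fin 2) ℤ) =
        ((ModularGroup.T ^ (t (ν y)) : SL(2, ℤ)) : Matrix (Fin 2) (Fin 2) ℤ) *
          jConjMat (((γ' (ν y) : Gamma0 N) : SL(2, ℤ)) : Matrix (Fin 2) (Fin 2) ℤ) *
          ((ModularGroup.T ^ (-(t (σ (ν y)))) : SL(2, ℤ)) : Matrix (Fin 2) (Fin 2) ℤ) := rfl
    have e5 : ((ModularGroup.T ^ (-(t (σ (ν y)))) : SL(2, ℤ)) : Matrix (Fin 2) (Fin 2) ℤ) *
        ((ModularGroup.T ^ (t (σ (ν y))) : SL(2, ℤ)) : Matrix (Fin 2) (Fin 2) ℤ) = 1 := by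
      rw [← Matrix.SpecialLinearGroup.coe_mul, ← _root_.zpow_add, neg_add_cancel, zpow_zero,
        Matrix.SpecialLinearGroup.coe_one]
    rw [e3, e4, e2]
    conv_lhs => rw [e1]
    rw [Matrix.mul_assoc, ← jConjMat_mul, hσ (ν y), jConjMat_mul]
    simp only [Matrix.mul_assoc]
    rw [← Matrix.mul_assoc ((ModularGroup.T ^ (-(t (σ (ν y)))) : SL(2, ℤ)) :
        Matrix (Fin 2) (Fin 2) ℤ), e5, Matrix.one_mul]
  have h := intHk_periodMap_of_sum_slash α A hA hdet hut f f' hf' (jConjGamma0 N γ) γ'' σ'' hrel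
  rw [h, ← Equiv.sum_comp ν (fun j => periodMap N f (Additive.ofMul (jConjGamma0 N (γ' j))))]
  refine Finset.sum_congr rfl fun y _ => ?_
  rw [hγ'']
  simp only [intHk_periodMap_mul, intHk_periodMap_Tpow, zero_add, add_zero]

/-! ### The coset representatives of `T_p`, `U_p` under `jConjMat` -/

lemma intHk_heckeMatZ_neg (p : ℕ) [NeZero p] (j : ZMod p) :
    heckeMatZ p (-j).val =
      ((ModularGroup.T ^ (if j = 0 then (0 : ℤ) else 1) : SL(2, ℤ)) : Matrix (Fin 2) (Fin 2) ℤ) *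
        jConjMat (heckeMatZ p j.val) := by
  rw [ModularGroup.coe_T_zpow, ZMod.neg_val]
  have hle : j.val ≤ p := (ZMod.val_lt j).le
  ext a b
  fin_cases a <;> fin_cases b <;> by_cases hj : j = 0 <;>
    simp [heckeMatZ, jConjMat, Matrix.mul_apply, Fin.sum_univ_two, hj, Nat.cast_sub hle]
  ring

lemma intHk_heckeDiagZ_jConj (p : ℕ) :
    heckeDiagZ p =
      ((ModularGroup.T ^ (0 : ℤ) : SL(2, ℤ)) : Matrix (Fin 2) (Fin 2) ℤ) *
        jConjMat (heckeDiagZ p) := by
  rw [zpow_zero, Matrix.SpecialLinearGroup.coe_one, Matrix.one_mul]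
  ext a b
  fin_cases a <;> fin_cases b <;> simp [heckeDiagZ, jConjMat]

/-- The involution `x ↦ -x` of `ℙ¹(𝔽_p)` (fixing `∞`). -/
def intHk_negPerm (p : ℕ) : Equiv.Perm (OnePoint (ZMod p)) :=
  Equiv.optionCongr (Equiv.neg (ZMod p))

/-- The `T`-exponent correcting `jConjMat` on the representatives of `T_p`. -/
def intHk_texp (p : ℕ) (x : OnePoint (ZMod p)) : ℤ :=
  x.elim 0 (fun j => if j = 0 then 0 else 1)

lemma intHk_negPerm_negPerm (p : ℕ) (x : OnePoint (ZMod p)) :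
    intHk_negPerm p (intHk_negPerm p x) = x := by
  induction x using OnePoint.rec with
  | infty => rfl
  | coe j =>
    show ((-(-j) : ZMod p) : OnePoint (ZMod p)) = j
    rw [neg_neg]

lemma intHk_heckeRepZ_negPerm (p : ℕ) [NeZero p] (x : OnePoint (ZMod p)) :
    heckeRepZ p (intHk_negPerm p x) =
      ((ModularGroup.T ^ (intHk_texp p x) : SL(2, ℤ)) : Matrix (Fin 2) (Fin 2) ℤ) *
        jConjMat (heckeRepZ p x) := by
  induction x using OnePoint.rec with
  | infty => exact intHk_heckeDiagZ_jConj p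
  | coe j => exact intHk_heckeMatZ_neg p j

/-! ### The Hecke operators -/

open ModularForm
open P2MW.S_ModularForm_heckeT_slash_eq_self_of_mem_Gamma0.ModularForm.HeckeSlashInvariance

/-- Hecke compatibility of the periods for `T_p`, `p ∤ N`, together with the `jConj` version. -/
theorem intHk_heckeT {p : ℕ} [NeZero p] (hp : p.Prime) (hpN : ¬ p ∣ N) (γ : Gamma0 N) :
    ∃ γ' : OnePoint (ZMod p) → Gamma0 N, ∀ f : CuspForm (Gamma0 N) 2,
      periodMap N (CuspForm.heckeTLin 2 hp hpN f) (Additive.ofMul γ) =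
        ∑ x, periodMap N f (Additive.ofMul (γ' x)) ∧
      periodMap N (CuspForm.heckeTLin 2 hp hpN f) (Additive.ofMul (jConjGamma0 N γ)) =
        ∑ x, periodMap N f (Additive.ofMul (jConjGamma0 N (γ' x))) := by
  have : Fact p.Prime := ⟨hp⟩
  obtain ⟨γ', h1, h2⟩ := exists_family_heckeRepZ hpN (γ : SL(2, ℤ)) γ.2
  refine ⟨fun x => ⟨γ' x, h1 x⟩, fun f => ?_⟩
  have hdet : ∀ x : OnePoint (ZMod p), 0 < (heckeRepZ p x).det := by
    intro x
    rw [det_heckeRepZ]
    exact_mod_cast hp.pos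
  have hf' := coe_heckeTLin_eq_sum (N := N) 2 hp hpN f
  exact ⟨intHk_periodMap_of_sum_slash (heckeRepZ p) (heckeRep p) (coe_heckeRep_eq_map hp.ne_zero)
      hdet (heckeRepZ_apply_one_zero p) f _ hf' γ (fun x => ⟨γ' x, h1 x⟩) (heckePermT p γ) h2,
    intHk_periodMap_jConj_of_sum_slash (heckeRepZ p) (heckeRep p) (coe_heckeRep_eq_map hp.ne_zero)
      hdet (heckeRepZ_apply_one_zero p) f _ hf' γ (fun x => ⟨γ' x, h1 x⟩) (heckePermT p γ) h2
      (intHk_negPerm p) (intHk_texp p) (intHk_negPerm_negPerm p) (intHk_heckeRepZ_negPerm p)⟩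

/-- Hecke compatibility of the periods for `U_p`, `p ∣ N`, together with the `jConj` version. -/
theorem intHk_heckeU {p : ℕ} [NeZero p] (hp : p.Prime) (hpN : p ∣ N) (γ : Gamma0 N) :
    ∃ γ' : ZMod p → Gamma0 N, ∀ f : CuspForm (Gamma0 N) 2,
      periodMap N (CuspForm.heckeULin 2 hpN f) (Additive.ofMul γ) =
        ∑ x, periodMap N f (Additive.ofMul (γ' x)) ∧
      periodMap N (CuspForm.heckeULin 2 hpN f) (Additive.ofMul (jConjGamma0 N γ)) =
        ∑ x, periodMap N f (Additive.ofMul (jConjGamma0 N (γ' x))) := by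
  obtain ⟨σ, γ', h1, h2⟩ := exists_family_heckeMatZ hpN (γ : SL(2, ℤ)) γ.2
  refine ⟨fun x => ⟨γ' x, h1 x⟩, fun f => ?_⟩
  have hdet : ∀ x : ZMod p, 0 < (heckeMatZ p x.val).det := by
    intro x
    rw [det_heckeMatZ]
    exact_mod_cast hp.pos
  have hf' := coe_heckeULin_eq_sum (N := N) 2 hpN f
  exact ⟨intHk_periodMap_of_sum_slash (fun x : ZMod p => heckeMatZ p x.val)
      (fun x : ZMod p => heckeMatrix p x.val) (fun x => coe_heckeMatrix_eq_map hp.ne_zero x.val)
      hdet (fun x => heckeMatZ_apply_one_zero p x.val) f _ hf' γ (fun x => ⟨γ' x, h1 x⟩) σ h2,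
    intHk_periodMap_jConj_of_sum_slash (fun x : ZMod p => heckeMatZ p x.val)
      (fun x : ZMod p => heckeMatrix p x.val) (fun x => coe_heckeMatrix_eq_map hp.ne_zero x.val)
      hdet (fun x => heckeMatZ_apply_one_zero p x.val) f _ hf' γ (fun x => ⟨γ' x, h1 x⟩) σ h2
      (Equiv.neg (ZMod p)) (fun j => if j = 0 then 0 else 1) (fun x => neg_neg x)
      (fun j => intHk_heckeMatZ_neg p j)⟩

/-! ### The period pairing -/

/-- If `t` is compatible with the periods along a family `γ'` (and its `jConj`), then the period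
pairing of `(t f, t g)` at `γ` is the sum of the period pairings of `(f, g)` along `γ'`. -/
theorem intHk_periodHomPair_of_family {ι : Type*} [Fintype ι]
    (t : Module.End ℂ (CuspForm (Gamma0 N) 2)) (γ : Gamma0 N) (γ' : ι → Gamma0 N)
    (h : ∀ f : CuspForm (Gamma0 N) 2,
      periodMap N (t f) (Additive.ofMul γ) = ∑ x, periodMap N f (Additive.ofMul (γ' x)) ∧
      periodMap N (t f) (Additive.ofMul (jConjGamma0 N γ)) =
        ∑ x, periodMap N f (Additive.ofMul (jConjGamma0 N (γ' x))))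
    (f g : CuspForm (Gamma0 N) 2) :
    periodHomPair N (t f, t g) (Additive.ofMul γ) =
      ∑ x, periodHomPair N (f, g) (Additive.ofMul (γ' x)) := by
  rw [pmP_periodHomPair_apply, (h f).1, (h f).2, (h g).1, (h g).2]
  simp only [pmP_periodHomPair_apply, Finset.sum_add_distrib, Finset.sum_sub_distrib]

/-- Every Hecke generator acts on the period pairing through finitely many elements of `Γ₀(N)`. -/
theorem intHk_exists_family (t : Module.End ℂ (CuspForm (Gamma0 N) 2))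
    (ht : t ∈ CuspForm.heckeGenerators N 2 ∅) (γ : Gamma0 N) :
    ∃ (ι : Type) (_ : Fintype ι) (γ' : ι → Gamma0 N), ∀ f g : CuspForm (Gamma0 N) 2,
      periodHomPair N (t f, t g) (Additive.ofMul γ) =
        ∑ x, periodHomPair N (f, g) (Additive.ofMul (γ' x)) := by
  rcases ht with ⟨ℓ, hℓ, hℓN, _, rfl⟩ | ⟨q, hqN, hq, _, rfl⟩
  · have : NeZero ℓ := ⟨hℓ.ne_zero⟩
    obtain ⟨γ', h⟩ := intHk_heckeT hℓ hℓN γ
    exact ⟨OnePoint (ZMod ℓ), inferInstance, γ', fun f g =>
      intHk_periodHomPair_of_family _ γ γ' h f g⟩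
  · have : NeZero q := ⟨hq.ne_zero⟩
    obtain ⟨γ', h⟩ := intHk_heckeU hq hqN γ
    exact ⟨ZMod q, inferInstance, γ', fun f g =>
      intHk_periodHomPair_of_family _ γ γ' h f g⟩

/-- **WP Hk (hgens)**: the Hecke generators preserve integrality of the period pairing. -/
theorem intHk_hgens (N : ℕ) [NeZero N] :
    ∀ t ∈ CuspForm.heckeGenerators N 2 ∅, ∀ f g : CuspForm (Gamma0 N) 2,
      (∀ γ : Gamma0 N, ∃ m : ℤ, periodHomPair N (f, g) (Additive.ofMul γ) = m) →
      ∀ γ : Gamma0 N, ∃ m : ℤ, periodHomPair N (t f, t g) (Additive.ofMul γ) = m := by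
  intro t ht f g hfg γ
  obtain ⟨ι, _, γ', h⟩ := intHk_exists_family t ht γ
  choose m hm using hfg
  refine ⟨∑ x, m (γ' x), ?_⟩
  rw [h f g]
  push_cast
  exact Finset.sum_congr rfl fun x _ => hm (γ' x)

end Fermat.Agent.Lib.Integral
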